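import Fermat.Prelude.Def_ModularCurve_HeckeOperatorTotal
import Fermat.Prelude.Def_ModularCurve_PeriodHomPair
import Fermat.Prelude.Def_FLTPrelim_Modularity
import Fermat.Prelude.Def_CuspForm_HeckeAlgebra
import Fermat.Agent.H21.Coh.Hecke
import Fermat.Agent.H23.EsA.Defs

/-!
# P-ES / ES-C (helper21): Hecke correspondences and Hecke equivariance — interfaces

Statement-`Prop`s only.  Blocks:

* **C1** `HeckeInputsStatement L` : the prelude's `HeckeInputsAlong L N ℓ` holds for every prime
  `ℓ` (so that the prelude Hecke operator `heckeOperatorAlong` is the honest correspondence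
  `α_* β^*` and not `0`).  Split into two generic statements about finite extensions of
  function fields (`RelFundamentalIdentityStatement`, `RelNormFormulaStatement`), the finiteness
  of the two degeneracy maps (`DegeneracyFiniteStatement`) and `PrincipalDivisorsStatement`.
* **C2** `KummerHeckeStatement N` : the torsion–character relation of ES-A intertwines the
  prelude Hecke operator on `Pic⁰(FC N)` with the transfer `cohTChar` on characters.  Its
  analytic heart is `NormRepStatement N`.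
* **C3** `CohEigenvectorStatement` : the eigensystem of a normalised eigenform occurs, modulo
  every prime of `ℤ̄`, in the parabolic cohomology `Hom_par(Γ₀(N), k)`.
-/

set_option autoImplicit false

noncomputable section

open AlgebraicCurve CongruenceSubgroup UpperHalfPlane IntermediateField
open scoped MatrixGroups Manifold OnePoint
open ModularCurve ModularCurve.Period
open P2MW.S_ModularForm_heckeT_slash_eq_self_of_mem_Gamma0.ModularForm.HeckeSlashInvariance

namespace Fermat.Agent.H21.EsC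

/-! ## C1: the inputs of the prelude Hecke operator -/

/-- **C1-REL-FI** (generic).  Relative fundamental identity `∑_{w ∣ v} e(w) deg w = [F':F] deg v`
for a finite extension of function fields of one variable over an algebraically closed field of
characteristic zero. -/
def RelFundamentalIdentityStatement : Prop :=
  ∀ (K F F' : Type) [Field K] [Field F] [Field F'] [Algebra K F] [Algebra K F'] [Algebra F F']
    [IsScalarTower K F F'] [IsAlgClosed K] [CharZero K] [Module.Finite F F']
    [HasPrincipalDivisors K F'],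
    (∃ x : F, Transcendental K x ∧ FiniteDimensional K⟮x⟯ F) →
    FundamentalIdentity K F F'

/-- **C1-REL-NF** (generic).  Norm formula `(f_* div g)(v) = ord_v (N_{F'/F} g)` for a finite
extension of function fields of one variable over an algebraically closed field of
characteristic zero. -/
def RelNormFormulaStatement : Prop :=
  ∀ (K F F' : Type) [Field K] [Field F] [Field F'] [Algebra K F] [Algebra K F'] [Algebra F F']
    [IsScalarTower K F F'] [IsAlgClosed K] [CharZero K] [Module.Finite F F']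
    [HasPrincipalDivisors K F'],
    (∃ x : F, Transcendental K x ∧ FiniteDimensional K⟮x⟯ F) →
    Divisor.PushforwardNormFormula K F F'

/-- **C1-FIN**.  Both degeneracy maps `α` (inclusion) and `β` (`q ↦ q^ℓ`) from level `N` to
level `N ℓ` are finite. -/
def DegeneracyFiniteStatement (L : Type) [Field L] [Algebra ℚ L] : Prop :=
  ∀ (N ℓ : ℕ) [NeZero N] [NeZero ℓ], ℓ.Prime →
    FiniteAlong L (heckeAlphaBar L N ℓ) ∧ FiniteAlong L (heckeBetaBar L N ℓ)

/-- **C1-FF**.  The function field of `X₀(M)` over `L` is a function field of one variable. -/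
def IsFunctionFieldStatement (L : Type) [Field L] [Algebra ℚ L] : Prop :=
  ∀ (M : ℕ) [NeZero M],
    ∃ x : ↥(laurentBaseChange L (modularFunctionFieldFull M)),
      Transcendental L x ∧
        FiniteDimensional L⟮x⟯ ↥(laurentBaseChange L (modularFunctionFieldFull M))

/-- **C1-PD**.  Principal divisors exist (finitely many zeros and poles) and have degree `0`
on the function field of `X₀(M)` over `L`. -/
def PrincipalDivisorsStatement (L : Type) [Field L] [Algebra ℚ L] : Prop :=
  ∀ (M : ℕ) [NeZero M],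
    HasPrincipalDivisors L ↥(laurentBaseChange L (modularFunctionFieldFull M))

/-- **C1** (main).  The inputs of the prelude Hecke operator hold at every prime. -/
def HeckeInputsStatement (L : Type) [Field L] [Algebra ℚ L] : Prop :=
  ∀ (N ℓ : ℕ) [NeZero N] [NeZero ℓ], ℓ.Prime → HeckeInputsAlong L N ℓ

/-- **C1-DEG**.  The degree of `α` is `ℓ + 1` for `ℓ ∤ N`. -/
def DegreeAlphaStatement (L : Type) [Field L] [Algebra ℚ L] : Prop :=
  ∀ (N ℓ : ℕ) [NeZero N] [NeZero ℓ], ℓ.Prime → ¬ ℓ ∣ N →
    finrankAlong L (heckeAlphaBar L N ℓ) = ℓ + 1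

/-! ## C2: Hecke equivariance of the Kummer characters -/

/-- The transfer `cohT` on multiplicative characters `Γ₀(N) →* ℂˣ`. -/
def cohTChar (N ℓ : ℕ) (hℓ : ℓ.Prime) (hℓN : ¬ ℓ ∣ N) (χ : ↥(Gamma0 N) →* ℂˣ) :
    ↥(Gamma0 N) →* ℂˣ :=
  MonoidHom.toAdditive.symm (cohT N ℓ hℓ hℓN (Additive ℂˣ) (MonoidHom.toAdditive χ))

/-- The product of the translates of a function on `ℍ` by the Hecke representatives. -/
def heckeProd (ℓ : ℕ) [NeZero ℓ] (F : ℍ → ℂ) : ℍ → ℂ :=
  fun z => ∏ x : OnePoint (ZMod ℓ), F (heckeRep ℓ x • z)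

/-- **C2-NORM** (analytic heart).  If the holomorphic function `F` represents `f ∈ FC N`, then
the product of its Hecke translates represents the norm of `β f` along `α`. -/
def NormRepStatement (N : ℕ) [NeZero N] : Prop :=
  ∀ (ℓ : ℕ) [NeZero ℓ], ℓ.Prime → ¬ ℓ ∣ N →
    ∀ (f : ↥(Fermat.Agent.H23.EsA.FC N)) (F : ℍ → ℂ), MDiff F →
      Fermat.Agent.H23.EsA.Rep N F f →
      Fermat.Agent.H23.EsA.Rep N (heckeProd ℓ F)
        (letI := algebraAlong (heckeAlphaBar ℂ N ℓ)
         Algebra.norm ↥(Fermat.Agent.H23.EsA.FC N) (heckeBetaBar ℂ N ℓ f))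

/-- **C2** (main).  The torsion–character relation intertwines the prelude Hecke operator with
the transfer on characters. -/
def KummerHeckeStatement (N : ℕ) [NeZero N] : Prop :=
  ∀ (ℓ : ℕ) [NeZero ℓ] (hℓ : ℓ.Prime) (hℓN : ¬ ℓ ∣ N) (m : ℕ), 0 < m →
    ∀ (x : Pic0 ℂ ↥(Fermat.Agent.H23.EsA.FC N)) (χ : ↥(Gamma0 N) →* ℂˣ),
      Fermat.Agent.H23.EsA.TorsionCharRel N m x χ →
      Fermat.Agent.H23.EsA.TorsionCharRel N m (heckeOperatorAlong ℂ N ℓ x)
        (cohTChar N ℓ hℓ hℓN χ)

/-! ## C3: eigenvectors in parabolic cohomology -/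

/-- **C3-EIG**.  A normalised eigenform is an eigenvector of `T_ℓ`, `ℓ ∤ N`, with eigenvalue
its `ℓ`-th coefficient, and the eigenvalue is an algebraic integer. -/
def EigenformHeckeStatement : Prop :=
  ∀ (N : ℕ) [NeZero N] (g : CuspForm (Gamma0 N) 2), g.IsNormalizedEigenform →
    ∀ (ℓ : ℕ) (hℓ : ℓ.Prime) (hℓN : ¬ ℓ ∣ N),
      CuspForm.heckeTLin 2 hℓ hℓN g = ModularFormClass.qCoeff g ℓ • g ∧
      IsIntegral ℤ (ModularFormClass.qCoeff g ℓ)

/-- **C3-PER**.  The period map is Hecke equivariant (repackaging of `LB-PERIOD`). -/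
def PeriodMapHeckeStatement : Prop :=
  ∀ (N : ℕ) [NeZero N] (g : CuspForm (Gamma0 N) 2) (ℓ : ℕ) (hℓ : ℓ.Prime) (hℓN : ¬ ℓ ∣ N),
    periodMap N (CuspForm.heckeTLin 2 hℓ hℓN g) = cohT N ℓ hℓ hℓN ℂ (periodMap N g)

/-- **C3-COMM**.  The cohomological Hecke operators commute on integral parabolic classes. -/
def CohCommStatement : Prop :=
  ∀ (N : ℕ) [NeZero N] (ℓ ℓ' : ℕ) (hℓ : ℓ.Prime) (hℓN : ¬ ℓ ∣ N) (hℓ' : ℓ'.Prime)
    (hℓ'N : ¬ ℓ' ∣ N) (ψ : Additive ↥(Gamma0 N) →+ ℤ), IsParabolicHom (Gamma0 N) ψ →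
    cohT N ℓ hℓ hℓN ℤ (cohT N ℓ' hℓ' hℓ'N ℤ ψ) = cohT N ℓ' hℓ' hℓ'N ℤ (cohT N ℓ hℓ hℓN ℤ ψ)

/-- **C3-RAT**.  Rational structure: a complex parabolic class vanishing nowhere-defined-by
integral classes: if all integral parabolic classes vanish at `γ`, so do the complex ones. -/
def RationalStructureStatement : Prop :=
  ∀ (N : ℕ) [NeZero N] (γ : ↥(Gamma0 N)),
    (∀ ψ : Additive ↥(Gamma0 N) →+ ℤ, IsParabolicHom (Gamma0 N) ψ → ψ (Additive.ofMul γ) = 0) →
    ∀ v : Additive ↥(Gamma0 N) →+ ℂ, IsParabolicHom (Gamma0 N) v → v (Additive.ofMul γ) = 0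

/-- **C3-ALG** (pure algebra).  Reduction of eigensystems: a finitely generated torsion-free
abelian group `B` with a commuting family of endomorphisms and a nonzero complex eigencharacter
has, for every ring homomorphism `φ : ℤ̄ → k` to a field of positive characteristic, a nonzero
`k`-valued eigencharacter with the reduced eigenvalues. -/
def ReductionEigenStatement : Prop :=
  ∀ (B : Type) [AddCommGroup B] [Module.Finite ℤ B] [Module.Free ℤ B] (ι : Type)
    (t : ι → (B →+ B)), (∀ i j, (t i).comp (t j) = (t j).comp (t i)) →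
    ∀ (v : B →+ ℂ) (a : ι → ℂ), v ≠ 0 → (∀ i, v.comp (t i) = a i • v) →
    (∀ i, IsIntegral ℤ (a i)) ∧
    ∀ (p : ℕ), p.Prime → ∀ (k : Type) [Field k] [CharP k p] (φ : integralClosure ℤ ℂ →+* k),
      ∃ w : B →+ k, w ≠ 0 ∧
        ∀ i, ∃ b : integralClosure ℤ ℂ, (b : ℂ) = a i ∧ w.comp (t i) = φ b • w

/-- **C3** (main).  The eigensystem of a normalised eigenform occurs in `Hom_par(Γ₀(N), k)`
for every ring homomorphism `ℤ̄ → k` to a field of positive characteristic. -/
def CohEigenvectorStatement : Prop :=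
  ∀ (N : ℕ) [NeZero N] (g : CuspForm (Gamma0 N) 2), g.IsNormalizedEigenform →
    ∀ (p : ℕ), p.Prime → ∀ (k : Type) [Field k] [CharP k p] (φ : integralClosure ℤ ℂ →+* k),
      ∃ ψ : Additive ↥(Gamma0 N) →+ k, ψ ≠ 0 ∧ IsParabolicHom (Gamma0 N) ψ ∧
        (∀ γ : ↥(Gamma0 N), IsOfFinOrder γ → ψ (Additive.ofMul γ) = 0) ∧
        ∀ (ℓ : ℕ) (hℓ : ℓ.Prime) (hℓN : ¬ ℓ ∣ N),
          ∃ a : integralClosure ℤ ℂ, (a : ℂ) = ModularFormClass.qCoeff g ℓ ∧
            cohT N ℓ hℓ hℓN k ψ = φ a • ψ

end Fermat.Agent.H21.EsC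

end
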