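import Fermat.Agent.H21.EsC.Interfaces
import Fermat.Agent.H57.HeckePeriod
import Fermat.Agent.H28.S21Glue
import Fermat.Agent.H31.PeriodInjective
import Fermat.Agent.H63.S21A
import Fermat.Agent.H19.Assembly
import Fermat.Prelude.Sol.S_CuspForm_heckeTLin_comm

/-!
# ES-C3-PER and ES-C3-COMM

* `periodMapHecke : PeriodMapHeckeStatement` — the period map intertwines `T_ℓ` on cusp forms
  with the transfer `cohT` on `Hom(Γ₀(N), ℂ)`;
* `periodHomPair_cohT` — the same for `periodHomPair`;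
* `cohComm : CohCommStatement` — the operators `cohT` commute on integral parabolic classes.
-/

set_option autoImplicit false

noncomputable section

open CongruenceSubgroup UpperHalfPlane
open scoped MatrixGroups Manifold OnePoint ModularForm
open ModularCurve ModularCurve.Period
open P2MW.S_ModularForm_heckeT_slash_eq_self_of_mem_Gamma0.ModularForm.HeckeSlashInvariance

namespace Fermat.Agent.H21.EsC

/-- Eichler–Shimura (landed S21), restated. -/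
theorem eichlerShimura (N : ℕ) [NeZero N] :
    Function.Injective (periodHomPair N)
      ∧ LinearMap.range (periodHomPair N) = parabolicHoms ℂ (Gamma0 N) ℂ :=
  Fermat.Agent.H28.eichlerShimura_of N
    (Fermat.Agent.H31.injective_periodHomPair N
      (fun f => Fermat.Agent.H63.exists_hasEquivariantPrimitive N f))
    (Fermat.Agent.H19.dim_formula N)

theorem heckeTLin_apply_eq_sum {N : ℕ} {ℓ : ℕ} [NeZero ℓ] (hℓ : ℓ.Prime) (hℓN : ¬ ℓ ∣ N)
    (f : CuspForm (Gamma0 N) 2) (z : ℍ) :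
    CuspForm.heckeTLin 2 hℓ hℓN f z
      = ∑ x : OnePoint (ZMod ℓ), ((f : ℍ → ℂ) ∣[(2 : ℤ)] heckeRep ℓ x) z := by
  rw [CuspForm.heckeTLin_apply_apply, heckeT_eq_sum_onePoint, Finset.sum_apply]

/-- **ES-C3-PER.** -/
theorem periodMapHecke : PeriodMapHeckeStatement := by
  intro N _ g ℓ hℓ hℓN
  have : Fact ℓ.Prime := ⟨hℓ⟩
  have : NeZero ℓ := ⟨hℓ.ne_zero⟩
  refine AddMonoidHom.ext fun γ' => ?_
  obtain ⟨γ, rfl⟩ : ∃ γ : Gamma0 N, Additive.ofMul γ = γ' := ⟨Additive.toMul γ', rfl⟩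
  obtain ⟨σ, κ, hrw, happ⟩ := cohT_apply_exists (N := N) hℓ hℓN γ
  rw [happ ℂ (periodMap N g)]
  exact Fermat.Agent.H57.periodMap_transfer (heckeRep ℓ) (Fermat.Agent.H57.det_heckeRep_pos ℓ)
    (Fermat.Agent.H57.tendsto_heckeRep_smul hℓ.ne_zero) g _
    (heckeTLin_apply_eq_sum hℓ hℓN g) γ σ κ hrw

/-- The pair version of the Hecke equivariance of periods. -/
theorem periodHomPair_cohT (N : ℕ) [NeZero N] (ℓ : ℕ) (hℓ : ℓ.Prime) (hℓN : ¬ ℓ ∣ N)
    (f g : CuspForm (Gamma0 N) 2) :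
    periodHomPair N (CuspForm.heckeTLin 2 hℓ hℓN f, CuspForm.heckeTLin 2 hℓ hℓN g)
      = cohT N ℓ hℓ hℓN ℂ (periodHomPair N (f, g)) := by
  have : Fact ℓ.Prime := ⟨hℓ⟩
  have : NeZero ℓ := ⟨hℓ.ne_zero⟩
  refine AddMonoidHom.ext fun γ' => ?_
  obtain ⟨γ, rfl⟩ : ∃ γ : Gamma0 N, Additive.ofMul γ = γ' := ⟨Additive.toMul γ', rfl⟩
  obtain ⟨σ, κ, hrw, happ⟩ := cohT_apply_exists (N := N) hℓ hℓN γ
  rw [happ ℂ (periodHomPair N (f, g))]
  exact Fermat.Agent.H57.periodHomPair_transfer (heckeRep ℓ)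
    (Fermat.Agent.H57.det_heckeRep_pos ℓ)
    (Fermat.Agent.H57.tendsto_heckeRep_smul hℓ.ne_zero) (Fermat.Agent.H57.hpNegOnePoint ℓ)
    (Fermat.Agent.H57.hpTranslOnePoint N ℓ) (Fermat.Agent.H57.J_mul_heckeRep N) f _ g _
    (heckeTLin_apply_eq_sum hℓ hℓN f) (heckeTLin_apply_eq_sum hℓ hℓN g) γ σ κ hrw

/-- Every complex parabolic class is a `periodHomPair`. -/
theorem exists_periodHomPair_eq (N : ℕ) [NeZero N] (v : Additive (Gamma0 N) →+ ℂ)
    (hv : IsParabolicHom (Gamma0 N) v) :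
    ∃ f g : CuspForm (Gamma0 N) 2, periodHomPair N (f, g) = v := by
  have h : v ∈ LinearMap.range (periodHomPair N) := by
    rw [(eichlerShimura N).2]
    exact hv
  obtain ⟨⟨f, g⟩, hfg⟩ := h
  exact ⟨f, g, hfg⟩

/-- The operators `cohT` commute on complex parabolic classes. -/
theorem cohT_comm_complex (N : ℕ) [NeZero N] (ℓ ℓ' : ℕ) (hℓ : ℓ.Prime) (hℓN : ¬ ℓ ∣ N)
    (hℓ' : ℓ'.Prime) (hℓ'N : ¬ ℓ' ∣ N) (v : Additive (Gamma0 N) →+ ℂ)
    (hv : IsParabolicHom (Gamma0 N) v) :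
    cohT N ℓ hℓ hℓN ℂ (cohT N ℓ' hℓ' hℓ'N ℂ v) = cohT N ℓ' hℓ' hℓ'N ℂ (cohT N ℓ hℓ hℓN ℂ v) := by
  obtain ⟨f, g, rfl⟩ := exists_periodHomPair_eq N v hv
  rw [← periodHomPair_cohT, ← periodHomPair_cohT, ← periodHomPair_cohT, ← periodHomPair_cohT]
  have hc : ∀ h : CuspForm (Gamma0 N) 2,
      CuspForm.heckeTLin 2 hℓ hℓN (CuspForm.heckeTLin 2 hℓ' hℓ'N h)
        = CuspForm.heckeTLin 2 hℓ' hℓ'N (CuspForm.heckeTLin 2 hℓ hℓN h) := by
    intro h
    have := P2MW.S_CuspForm_heckeTLin_comm.solution (N := N) 2 hℓ hℓN hℓ' hℓ'N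
    exact congrArg (fun T => T h) this
  rw [hc f, hc g]

/-- **ES-C3-COMM.** -/
theorem cohComm : CohCommStatement := by
  intro N _ ℓ ℓ' hℓ hℓN hℓ' hℓ'N ψ hψ
  -- compare after composing with the injection `ℤ → ℂ`
  let c : ℤ →+ ℂ := (Int.castRingHom ℂ).toAddMonoidHom
  have hc : Function.Injective c := Int.cast_injective
  have hψc : IsParabolicHom (Gamma0 N) (c.comp ψ) := by
    intro γ hγ
    show c (ψ (Additive.ofMul γ)) = 0
    rw [hψ γ hγ, map_zero]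
  have key := cohT_comm_complex N ℓ ℓ' hℓ hℓN hℓ' hℓ'N (c.comp ψ) hψc
  rw [cohT_comp hℓ' hℓ'N c ψ, cohT_comp hℓ hℓN c ψ, cohT_comp hℓ hℓN c, cohT_comp hℓ' hℓ'N c]
    at key
  refine AddMonoidHom.ext fun γ => ?_
  apply hc
  exact DFunLike.congr_fun key γ

end Fermat.Agent.H21.EsC

end
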