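import Fermat.Agent.H21.EsC.QEigBridge
import Fermat.Agent.H29.ESB.HeckeFinal
import Fermat.Agent.H49.ES.EsCAdapters
import Fermat.Agent.H35.EsC.KummerHecke
import Fermat.Agent.H58.EsC.NormRepFinal
import Fermat.Agent.H23.EsA.JTors

/-!
# P-ES / Q-EIG: UNCONDITIONAL

* `heckeInputs L`, `kummerHecke N` : ES-C1 and ES-C2, unconditional (assembled from the landed
  rows of helper49/54/93, helper35, helper58).
* `exists_kummerBridgeC N hm` : for every `m > 0` an injective additive map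
  `V_m → Pic⁰(ℂ(X₀(N)))[m]` intertwining `cohT ℓ` with the prelude Hecke operators.
* `exists_kummerBridge N hm` : the same with values in `J₀(N)(ℚ̄)[m]`.
* `kummerBridge N : KummerBridgeStatement N`.
* `occursVec` : **Q-EIG**: for every torsion Hecke datum `D` of level `N` at a prime `p` whose
  operators restrict the prelude Hecke operators, `D.OccursVec g` holds for every normalised
  eigenform `g`.
-/

set_option autoImplicit false

noncomputable section

open ModularCurve ModularCurve.Period AlgebraicCurve CongruenceSubgroup TensorProduct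
open scoped MatrixGroups

namespace Fermat.Agent.H21.EsC

/-! ## ES-C1 and ES-C2, unconditional -/

/-- **ES-C1**, unconditional. -/
theorem heckeInputs (L : Type) [Field L] [Algebra ℚ L] [IsAlgClosed L] :
    HeckeInputsStatement L := Fermat.Agent.H49.heckeInputsStatement L

/-- **ES-C2**, unconditional. -/
theorem kummerHecke (N : ℕ) [NeZero N] : KummerHeckeStatement N :=
  Fermat.Agent.H35.kummerHecke_of_parts N (heckeInputs ℂ) (Fermat.Agent.H58.normRepStatement N)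

/-! ## Elements of small trace have finite order -/

theorem sl2_pow_twelve_eq_one (A : SL(2, ℤ)) (h : (A 0 0 + A 1 1) ^ 2 < 4) : A ^ 12 = 1 := by
  have hdet : A 0 0 * A 1 1 - A 0 1 * A 1 0 = 1 := by
    have := A.det_coe
    rwa [Matrix.det_fin_two] at this
  obtain ⟨M, hM⟩ : ∃ M : Matrix (Fin 2) (Fin 2) ℤ, M = (A : Matrix (Fin 2) (Fin 2) ℤ) :=
    ⟨_, rfl⟩
  have hdet' : M 0 0 * M 1 1 - M 0 1 * M 1 0 = 1 := by rw [hM]; exact hdet
  have h' : (M 0 0 + M 1 1) ^ 2 < 4 := by rw [hM]; exact h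
  obtain ⟨t, ht⟩ : ∃ t : ℤ, t = M 0 0 + M 1 1 := ⟨_, rfl⟩
  have hCH : M * M = t • M - 1 := by
    ext i j
    fin_cases i <;> fin_cases j
    · show (M * M) 0 0 = (t • M - 1) 0 0
      rw [Matrix.mul_apply, Fin.sum_univ_two, Matrix.sub_apply, Matrix.smul_apply,
        Matrix.one_apply_eq, smul_eq_mul, ht]
      linear_combination (-1 : ℤ) * hdet'
    · show (M * M) 0 1 = (t • M - 1) 0 1
      rw [Matrix.mul_apply, Fin.sum_univ_two, Matrix.sub_apply, Matrix.smul_apply,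
        Matrix.one_apply_ne (by decide), smul_eq_mul, ht]
      ring
    · show (M * M) 1 0 = (t • M - 1) 1 0
      rw [Matrix.mul_apply, Fin.sum_univ_two, Matrix.sub_apply, Matrix.smul_apply,
        Matrix.one_apply_ne (by decide), smul_eq_mul, ht]
      ring
    · show (M * M) 1 1 = (t • M - 1) 1 1
      rw [Matrix.mul_apply, Fin.sum_univ_two, Matrix.sub_apply, Matrix.smul_apply,
        Matrix.one_apply_eq, smul_eq_mul, ht]
      linear_combination (-1 : ℤ) * hdet'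
  rw [← ht] at h'
  have ht1 : -2 < t := by nlinarith
  have ht2 : t < 2 := by nlinarith
  have key : M ^ 12 = 1 := by
    interval_cases t
    · -- t = -1
      have h2 : M * M = - M - 1 := by rw [hCH]; simp
      have h3 : M ^ 3 = 1 := by
        rw [pow_succ, pow_two, h2, sub_mul, neg_mul, h2, one_mul]; abel
      rw [show 12 = 3 * 4 from rfl, pow_mul, h3, one_pow]
    · -- t = 0
      have h2 : M ^ 2 = -1 := by rw [pow_two, hCH]; simp
      rw [show 12 = 2 * 6 from rfl, pow_mul, h2]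
      exact Even.neg_one_pow ⟨3, rfl⟩
    · -- t = 1
      have h2 : M * M = M - 1 := by rw [hCH]; simp
      have h3 : M ^ 3 = -1 := by
        rw [pow_succ, pow_two, h2, sub_mul, h2, one_mul]; abel
      rw [show 12 = 3 * 4 from rfl, pow_mul, h3]
      exact Even.neg_one_pow ⟨2, rfl⟩
  apply Subtype.ext
  rw [Matrix.SpecialLinearGroup.coe_pow, Matrix.SpecialLinearGroup.coe_one, ← hM]
  exact key

theorem gamma0_isOfFinOrder_of_trace {N : ℕ} (γ : ↥(Gamma0 N))
    (h : ((γ : SL(2, ℤ)) 0 0 + (γ : SL(2, ℤ)) 1 1) ^ 2 < 4) : IsOfFinOrder γ := by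
  refine isOfFinOrder_iff_pow_eq_one.mpr ⟨12, by norm_num, ?_⟩
  apply Subtype.ext
  rw [Subgroup.coe_pow, sl2_pow_twelve_eq_one _ h]
  rfl

/-! ## From classes mod `m` to characters -/

section chars

variable (m : ℕ) [NeZero m]

/-- The primitive `m`-th root of unity `exp (2πi / m)`, as a unit. -/
def zetaU : ℂˣ :=
  Units.mk0 (Complex.exp (2 * Real.pi * Complex.I / m))
    (Complex.exp_ne_zero _)

theorem zetaU_isPrimitiveRoot : IsPrimitiveRoot (zetaU m) m := by
  have h := Complex.isPrimitiveRoot_exp m (NeZero.ne m)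
  rw [IsPrimitiveRoot.iff_def] at h ⊢
  refine ⟨?_, ?_⟩
  · apply Units.ext
    rw [Units.val_pow_eq_pow_val, Units.val_one]
    exact h.1
  · intro l hl
    apply h.2
    have := congrArg Units.val hl
    rwa [Units.val_pow_eq_pow_val, Units.val_one] at this

/-- The embedding `ℤ/m → ℂˣ`, `a ↦ ζ^a`, written additively. -/
def expZ : ZMod m →+ Additive ℂˣ :=
  ZMod.lift m ⟨zmultiplesHom (Additive ℂˣ) (Additive.ofMul (zetaU m)), by
    show (m : ℤ) • Additive.ofMul (zetaU m) = 0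
    rw [natCast_zsmul]
    show Additive.ofMul (zetaU m ^ m) = 0
    rw [(zetaU_isPrimitiveRoot m).pow_eq_one]
    rfl⟩

theorem expZ_injective : Function.Injective (expZ m) := by
  rw [expZ, ZMod.lift_injective]
  intro a ha
  have h1 : zetaU m ^ a = 1 := ha
  have h2 := (zetaU_isPrimitiveRoot m).zpow_eq_one_iff_dvd a |>.mp h1
  exact (ZMod.intCast_zmod_eq_zero_iff_dvd a m).mpr h2

theorem nsmul_expZ (a : ZMod m) : m • expZ m a = 0 := by
  rw [← map_nsmul]
  have : m • a = 0 := by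
    rw [nsmul_eq_mul, ZMod.natCast_self, zero_mul]
  rw [this, map_zero]

variable (N : ℕ)

/-- The character `ζ^χ` of a class `χ : Γ₀(N) → ℤ/m`. -/
def charOf (χ : Additive ↥(Gamma0 N) →+ ZMod m) : ↥(Gamma0 N) →* ℂˣ :=
  MonoidHom.toAdditive.symm ((expZ m).comp χ)

theorem charOf_apply (χ : Additive ↥(Gamma0 N) →+ ZMod m) (γ : ↥(Gamma0 N)) :
    charOf m N χ γ = Additive.toMul (expZ m (χ (Additive.ofMul γ))) := rfl

theorem charOf_add (χ χ' : Additive ↥(Gamma0 N) →+ ZMod m) :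
    charOf m N (χ + χ') = charOf m N χ * charOf m N χ' := by
  refine MonoidHom.ext fun γ => ?_
  rw [MonoidHom.mul_apply, charOf_apply, charOf_apply, charOf_apply, AddMonoidHom.add_apply,
    map_add]
  rfl

theorem charOf_injective : Function.Injective (charOf m N) := by
  intro χ χ' h
  refine AddMonoidHom.ext fun γ => ?_
  apply expZ_injective m
  have := DFunLike.congr_fun h (Additive.toMul γ)
  rw [charOf_apply, charOf_apply] at this
  exact this

theorem charOf_pow (χ : Additive ↥(Gamma0 N) →+ ZMod m) : charOf m N χ ^ m = 1 := by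
  refine MonoidHom.ext fun γ => ?_
  rw [MonoidHom.pow_apply, charOf_apply, MonoidHom.one_apply]
  have := nsmul_expZ m (χ (Additive.ofMul γ))
  exact congrArg Additive.toMul this

theorem charOf_isParEllTrivial (χ : Additive ↥(Gamma0 N) →+ ZMod m) (hχ : χ ∈ parEllHoms N m) :
    Fermat.Agent.H94.EsA.IsParEllTrivial (charOf m N χ) := by
  intro γ hγ
  rw [Fermat.Agent.H94.EsA.trZ_eq] at hγ
  have h0 : χ (Additive.ofMul γ) = 0 := by
    rcases lt_or_eq_of_le hγ with h | h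
    · exact hχ γ (Or.inr (gamma0_isOfFinOrder_of_trace γ h))
    · refine hχ γ (Or.inl ?_)
      rw [Matrix.trace_fin_two]
      exact h
  rw [charOf_apply, h0, map_zero]
  rfl

theorem charOf_mem (χ : parEllHoms N m) :
    charOf m N (χ : Additive ↥(Gamma0 N) →+ ZMod m) ∈ Fermat.Agent.H94.EsA.kummerChars N m :=
  ⟨charOf_isParEllTrivial m N χ χ.2, charOf_pow m N χ⟩

theorem cohTChar_charOf (ℓ : ℕ) (hℓ : ℓ.Prime) (hℓN : ¬ ℓ ∣ N)
    (χ : Additive ↥(Gamma0 N) →+ ZMod m) :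
    cohTChar N ℓ hℓ hℓN (charOf m N χ) = charOf m N (cohT N ℓ hℓ hℓN (ZMod m) χ) := by
  unfold cohTChar charOf
  rw [Equiv.apply_symm_apply, cohT_comp]

end chars

/-! ## The complex bridge -/

/-- **QE-2** for every `m > 0`. -/
theorem exists_kummerBridgeC (N : ℕ) [NeZero N] {m : ℕ} (hm : 0 < m) :
    ∃ E : parEllHoms N m →+ Pic0 ℂ ↥(laurentBaseChange ℂ (modularFunctionFieldFull N)),
      Function.Injective E ∧ (∀ χ, m • E χ = 0) ∧
      ∀ (ℓ : ℕ) [NeZero ℓ] (hℓ : ℓ.Prime) (hℓN : ¬ ℓ ∣ N) (χ : parEllHoms N m),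
        E (cohTPar N m ℓ hℓ hℓN χ) = heckeOperatorAlong ℂ N ℓ (E χ) := by
  haveI : NeZero m := ⟨hm.ne'⟩
  obtain ⟨e, he, hemul⟩ := Fermat.Agent.H23.EsA.exists_torsion_equiv N hm
  obtain ⟨-, huniq, hadm, -, -, -⟩ := Fermat.Agent.H23.EsA.torsionCharStatement N m hm
  -- uniqueness of the class with a given character
  have hclass : ∀ (x x' : Pic0 ℂ ↥(Fermat.Agent.H23.EsA.FC N)) (χ₀ : ↥(Gamma0 N) →* ℂˣ),
      Fermat.Agent.H23.EsA.TorsionCharRel N m x χ₀ →
      Fermat.Agent.H23.EsA.TorsionCharRel N m x' χ₀ → x = x' := by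
    intro x x' χ₀ hx hx'
    have hxt := (hadm x χ₀ hx).1
    have hxt' := (hadm x' χ₀ hx').1
    have h1 : ((e ⟨x, hxt⟩ : ↥(Fermat.Agent.H94.EsA.kummerChars N m)) :
        ↥(Gamma0 N) →* ℂˣ) = χ₀ := huniq x _ _ (he ⟨x, hxt⟩) hx
    have h2 : ((e ⟨x', hxt'⟩ : ↥(Fermat.Agent.H94.EsA.kummerChars N m)) :
        ↥(Gamma0 N) →* ℂˣ) = χ₀ := huniq x' _ _ (he ⟨x', hxt'⟩) hx'
    have h3 : e ⟨x, hxt⟩ = e ⟨x', hxt'⟩ := Subtype.ext (h1.trans h2.symm)
    exact congrArg Subtype.val (e.injective h3)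
  let X : parEllHoms N m → ↥(Fermat.Agent.H94.EsA.kummerChars N m) :=
    fun χ => ⟨charOf m N (χ : Additive ↥(Gamma0 N) →+ ZMod m), charOf_mem m N χ⟩
  let E₀ : parEllHoms N m → Pic0 ℂ ↥(laurentBaseChange ℂ (modularFunctionFieldFull N)) :=
    fun χ => ((e.symm (X χ) : ↥(Pic0.torsion ℂ ↥(Fermat.Agent.H23.EsA.FC N) m)) :
      Pic0 ℂ ↥(Fermat.Agent.H23.EsA.FC N))
  have hrel : ∀ χ : parEllHoms N m, Fermat.Agent.H23.EsA.TorsionCharRel N m (E₀ χ)
      (charOf m N (χ : Additive ↥(Gamma0 N) →+ ZMod m)) := by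
    intro χ
    have := he (e.symm (X χ))
    rw [e.apply_symm_apply] at this
    exact this
  have hXadd : ∀ χ χ' : parEllHoms N m, X (χ + χ') = X χ * X χ' := by
    intro χ χ'
    apply Subtype.ext
    exact charOf_add m N _ _
  have hadd : ∀ χ χ', E₀ (χ + χ') = E₀ χ + E₀ χ' := by
    intro χ χ'
    show ((e.symm (X (χ + χ')) : ↥(Pic0.torsion ℂ ↥(Fermat.Agent.H23.EsA.FC N) m)) :
      Pic0 ℂ ↥(Fermat.Agent.H23.EsA.FC N)) = ((e.symm (X χ) + e.symm (X χ') :
        ↥(Pic0.torsion ℂ ↥(Fermat.Agent.H23.EsA.FC N) m)) :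
        Pic0 ℂ ↥(Fermat.Agent.H23.EsA.FC N))
    congr 1
    apply e.injective
    rw [e.apply_symm_apply, hemul, e.apply_symm_apply, e.apply_symm_apply, hXadd]
  have hzero : E₀ 0 = 0 := by
    have := hadd 0 0
    rw [add_zero] at this
    exact left_eq_add.mp this
  refine ⟨⟨⟨E₀, hzero⟩, hadd⟩, ?_, ?_, ?_⟩
  · intro χ χ' h
    have h1 : e.symm (X χ) = e.symm (X χ') := Subtype.ext h
    have h2 : X χ = X χ' := e.symm.injective h1
    have h3 : charOf m N (χ : Additive ↥(Gamma0 N) →+ ZMod m)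
        = charOf m N (χ' : Additive ↥(Gamma0 N) →+ ZMod m) := congrArg Subtype.val h2
    exact Subtype.ext (charOf_injective m N h3)
  · intro χ
    have := (e.symm (X χ)).2
    rw [Pic0.mem_torsion, natCast_zsmul] at this
    exact this
  · intro ℓ _ hℓ hℓN χ
    show E₀ (cohTPar N m ℓ hℓ hℓN χ) = heckeOperatorAlong ℂ N ℓ (E₀ χ)
    have h1 := kummerHecke N ℓ hℓ hℓN m hm (E₀ χ) _ (hrel χ)
    rw [cohTChar_charOf] at h1
    exact hclass _ _ _ (hrel (cohTPar N m ℓ hℓ hℓN χ)) h1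

/-- **QE-2.** -/
theorem kummerBridgeC (N : ℕ) [NeZero N] : KummerBridgeCStatement N :=
  fun _ hp => exists_kummerBridgeC N hp.pos

/-! ## Descent -/

/-- **QE-3.** -/
theorem descentHecke (N : ℕ) [NeZero N] : DescentHeckeStatement N := by
  refine ⟨Fermat.Agent.H29.descentHom N Fermat.Agent.H23.EsA.embQBar,
    Fermat.Agent.H29.descentHom_injective N _, ?_, ?_⟩
  · intro m hm z hz
    obtain ⟨z₀, -, hz₀⟩ := Fermat.Agent.H29.descentHom_surjOn_torsion N
      Fermat.Agent.H23.EsA.embQBar hm (Fermat.Agent.H23.EsA.finite_torsion_pic0 N hm) z (by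
        rw [Pic0.mem_torsion, natCast_zsmul]
        exact hz)
    exact ⟨z₀, hz₀⟩
  · intro ℓ _ hℓ _ m _ x _
    exact Fermat.Agent.H29.descentHom_hecke N _ ℓ (heckeInputs (AlgebraicClosure ℚ) N ℓ hℓ)
      (heckeInputs ℂ N ℓ hℓ) x

/-! ## The bridge -/

/-- **The Kummer bridge for every `m > 0`**: an injective additive map from the classes
`Γ₀(N) → ℤ/m` (parabolic, trivial on finite order) to the `m`-torsion of `J₀(N)(ℚ̄)`,
intertwining `cohT ℓ` with the prelude Hecke operator, for every prime `ℓ ∤ N`. -/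
theorem exists_kummerBridge (N : ℕ) [NeZero N] {m : ℕ} (hm : 0 < m) :
    ∃ E : parEllHoms N m →+ JZero N, Function.Injective E ∧ (∀ χ, m • E χ = 0) ∧
      ∀ (ℓ : ℕ) (hℓ : ℓ.Prime) (hℓN : ¬ ℓ ∣ N) (χ : parEllHoms N m),
        E (cohTPar N m ℓ hℓ hℓN χ) = heckeOperatorBar N ⟨ℓ, hℓ⟩ (E χ) := by
  obtain ⟨E₁, hE₁inj, hE₁tors, hE₁hecke⟩ := exists_kummerBridgeC N hm
  obtain ⟨φ, hφinj, hφsurj, hφhecke⟩ := descentHecke N
  have hex : ∀ χ : parEllHoms N m, ∃ z₀ : JZero N, φ z₀ = E₁ χ :=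
    fun χ => hφsurj m hm (E₁ χ) (hE₁tors χ)
  choose e he using hex
  have hadd : ∀ χ χ', e (χ + χ') = e χ + e χ' := by
    intro χ χ'
    apply hφinj
    rw [map_add, he, he, he, map_add]
  have hzero : e 0 = 0 := by
    apply hφinj
    rw [he, map_zero, map_zero]
  have htors : ∀ χ, m • e χ = 0 := by
    intro χ
    apply hφinj
    rw [map_nsmul, he, hE₁tors, map_zero]
  refine ⟨⟨⟨e, hzero⟩, hadd⟩, ?_, htors, ?_⟩
  · intro χ χ' h
    apply hE₁inj
    have h' : e χ = e χ' := h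
    rw [← he χ, ← he χ', h']
  · intro ℓ hℓ hℓN χ
    haveI : NeZero ℓ := ⟨hℓ.ne_zero⟩
    apply hφinj
    show φ (e (cohTPar N m ℓ hℓ hℓN χ)) = φ (heckeOperatorBar N ⟨ℓ, hℓ⟩ (e χ))
    rw [he, hφhecke ℓ hℓ hℓN m hm (e χ) (htors χ), he, hE₁hecke ℓ hℓ hℓN χ]

/-- **The bridge**, unconditional. -/
theorem kummerBridge (N : ℕ) [NeZero N] : KummerBridgeStatement N :=
  fun _ hp => exists_kummerBridge N hp.pos

/-- **Q-EIG**, unconditional: the eigen-system of every normalised eigenform occurs in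
`k ⊗ J₀(N)[p]`, for every torsion Hecke datum whose operators restrict the prelude Hecke
operators. -/
theorem occursVec (N : ℕ) [NeZero N] (p : ℕ) (hp : p.Prime)
    (D : Fermat.Agent.H22.ES.TorsionHeckeDatum N p)
    (hD : ∀ (ℓ : ℕ) (hℓ : ℓ.Prime), ¬ ℓ ∣ N → ∀ x : Fermat.Agent.H22.ES.JTors N p,
      ((D.T ℓ x : Fermat.Agent.H22.ES.JTors N p) : JZero N)
        = heckeOperatorBar N ⟨ℓ, hℓ⟩ (x : JZero N))
    (g : CuspForm (Gamma0 N) 2) (hg : g.IsNormalizedEigenform) : D.OccursVec g :=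
  occursVec_of_bridge N p hp (kummerBridge N) D hD g hg

end Fermat.Agent.H21.EsC

end
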