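import Fermat.Agent.H21.EsC.Period
import Fermat.Agent.H6.S22_gamma0_exists_generators

/-!
# ES-C3-ASM: eigenvectors in parabolic cohomology with coefficients in characteristic `p`

`cohEigenvector_of_parts :
  EigenformHeckeStatement → RationalStructureStatement → ReductionEigenStatement →
  CohEigenvectorStatement`.

Construction: `Λ` = integral parabolic classes, `ev : Γ₀(N) → (Λ → ℤ)` the evaluation,
`B = range ev` (a finitely generated torsion-free abelian group), `t_ℓ` = transpose of `cohT`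
on `B`, `v (ev γ) = periodHomPair (g, 0) γ`.
-/

set_option autoImplicit false

noncomputable section

open CongruenceSubgroup UpperHalfPlane Finset
open scoped MatrixGroups Manifold OnePoint ModularForm
open ModularCurve ModularCurve.Period
open P2MW.S_ModularForm_heckeT_slash_eq_self_of_mem_Gamma0.ModularForm.HeckeSlashInvariance

namespace Fermat.Agent.H21.EsC

section construction

variable (N : ℕ)

/-- The integral parabolic classes. -/
abbrev Lam : Submodule ℤ (Additive (Gamma0 N) →+ ℤ) := parabolicHoms ℤ (Gamma0 N) ℤ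

/-- Evaluation of integral parabolic classes at elements of `Γ₀(N)`. -/
def evHom : Additive (Gamma0 N) →+ (Lam N → ℤ) where
  toFun γ := fun lam => (lam : Additive (Gamma0 N) →+ ℤ) γ
  map_zero' := by funext lam; simp
  map_add' γ γ' := by funext lam; simp

@[simp] theorem evHom_apply (γ : Additive (Gamma0 N)) (lam : Lam N) :
    evHom N γ lam = (lam : Additive (Gamma0 N) →+ ℤ) γ := rfl

/-- The image of the evaluation map, as a `ℤ`-submodule. -/
def evRange : Submodule ℤ (Lam N → ℤ) where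
  carrier := Set.range (evHom N)
  zero_mem' := ⟨0, map_zero _⟩
  add_mem' := by
    rintro _ _ ⟨γ, rfl⟩ ⟨γ', rfl⟩
    exact ⟨γ + γ', map_add _ _ _⟩
  smul_mem' := by
    rintro n _ ⟨γ, rfl⟩
    exact ⟨n • γ, map_zsmul _ _ _⟩

theorem mem_evRange {β : Lam N → ℤ} : β ∈ evRange N ↔ ∃ γ, evHom N γ = β := Iff.rfl

/-- The evaluation map, with values in its range. -/
def evR : Additive (Gamma0 N) →+ ↥(evRange N) where
  toFun γ := ⟨evHom N γ, ⟨γ, rfl⟩⟩
  map_zero' := Subtype.ext (map_zero _)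
  map_add' γ γ' := Subtype.ext (map_add _ _ _)

@[simp] theorem coe_evR (γ : Additive (Gamma0 N)) : ((evR N γ : evRange N) : Lam N → ℤ)
    = evHom N γ := rfl

theorem evR_surjective : Function.Surjective (evR N) := by
  rintro ⟨β, γ, rfl⟩
  exact ⟨γ, rfl⟩

theorem evR_eq_zero_of_parabolic (γ : Gamma0 N)
    (hγ : ((γ : SL(2, ℤ)) : Matrix (Fin 2) (Fin 2) ℤ).trace ^ 2 = 4) :
    evR N (Additive.ofMul γ) = 0 := by
  apply Subtype.ext
  funext lam
  exact lam.2 γ hγ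

theorem evR_eq_zero_of_isOfFinOrder (γ : Gamma0 N) (hγ : IsOfFinOrder γ) :
    evR N (Additive.ofMul γ) = 0 := by
  obtain ⟨n, hn, hγn⟩ := isOfFinOrder_iff_pow_eq_one.mp hγ
  apply Subtype.ext
  funext lam
  have h1 : (n : ℤ) • (lam : Additive (Gamma0 N) →+ ℤ) (Additive.ofMul γ) = 0 := by
    have : (lam : Additive (Gamma0 N) →+ ℤ) (n • Additive.ofMul γ) = 0 := by
      rw [← ofMul_pow, hγn]
      exact map_zero _
    rw [map_nsmul] at this
    simpa using this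
  have hn' : (n : ℤ) ≠ 0 := by exact_mod_cast hn.ne'
  show (lam : Additive (Gamma0 N) →+ ℤ) (Additive.ofMul γ) = 0
  rcases smul_eq_zero.mp h1 with h | h
  · exact absurd h hn'
  · exact h

theorem evRange_fg [NeZero N] : (evRange N).FG := by
  obtain ⟨m, gens, hmem, hclos⟩ := Fermat.Agent.H6.gamma0_exists_generators N
  have key : evRange N = Submodule.span ℤ
      (Set.range fun j : Fin m => evHom N (Additive.ofMul ⟨gens j, hmem j⟩)) := by
    apply le_antisymm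
    · rintro _ ⟨γ', rfl⟩
      obtain ⟨γ, rfl⟩ : ∃ γ : Gamma0 N, Additive.ofMul γ = γ' := ⟨Additive.toMul γ', rfl⟩
      obtain ⟨g, hg⟩ := γ
      have hg' : g ∈ Subgroup.closure (Set.range gens) := by rw [hclos]; exact hg
      have hmemcl : ∀ x, x ∈ Subgroup.closure (Set.range gens) → x ∈ Gamma0 N :=
        fun x hx => by rw [← hclos]; exact hx
      suffices h : ∀ (x : SL(2, ℤ)) (hx : x ∈ Subgroup.closure (Set.range gens)),
          evHom N (Additive.ofMul ⟨x, hmemcl x hx⟩) ∈ Submodule.span ℤ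
            (Set.range fun j : Fin m => evHom N (Additive.ofMul ⟨gens j, hmem j⟩)) from
        h g hg'
      intro x hx
      induction hx using Subgroup.closure_induction with
      | mem x hx =>
        obtain ⟨j, rfl⟩ := hx
        exact Submodule.subset_span ⟨j, rfl⟩
      | one =>
        have : (Additive.ofMul (⟨1, hmemcl 1 (Subgroup.one_mem _)⟩ : Gamma0 N))
            = (0 : Additive (Gamma0 N)) := rfl
        rw [this, map_zero]
        exact Submodule.zero_mem _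
      | mul x y hx hy ihx ihy =>
        have : (Additive.ofMul (⟨x * y, hmemcl _ (Subgroup.mul_mem _ hx hy)⟩ : Gamma0 N))
            = Additive.ofMul (⟨x, hmemcl x hx⟩ : Gamma0 N)
              + Additive.ofMul (⟨y, hmemcl y hy⟩ : Gamma0 N) := rfl
        rw [this, map_add]
        exact Submodule.add_mem _ ihx ihy
      | inv x hx ihx =>
        have : (Additive.ofMul (⟨x⁻¹, hmemcl _ (Subgroup.inv_mem _ hx)⟩ : Gamma0 N))
            = - Additive.ofMul (⟨x, hmemcl x hx⟩ : Gamma0 N) := rfl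
        rw [this, map_neg]
        exact Submodule.neg_mem _ ihx
    · rw [Submodule.span_le]
      rintro _ ⟨j, rfl⟩
      exact ⟨_, rfl⟩
  rw [key]
  exact Submodule.fg_span (Set.finite_range _)

instance instFiniteEvRange [NeZero N] : Module.Finite ℤ ↥(evRange N) :=
  Module.Finite.iff_fg.mpr (evRange_fg N)

variable {N}

/-- `cohT` restricted to integral parabolic classes. -/
def cohTLam (ℓ : ℕ) (hℓ : ℓ.Prime) (hℓN : ¬ ℓ ∣ N) : Lam N → Lam N :=
  fun lam => ⟨cohT N ℓ hℓ hℓN ℤ lam, cohT_mem_parabolicHoms hℓ hℓN lam.2⟩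

/-- The transpose of `cohT` on functions on `Λ`. -/
def trFun (ℓ : ℕ) (hℓ : ℓ.Prime) (hℓN : ¬ ℓ ∣ N) : (Lam N → ℤ) →ₗ[ℤ] (Lam N → ℤ) :=
  LinearMap.funLeft ℤ ℤ (cohTLam ℓ hℓ hℓN)

theorem trFun_evHom_apply (ℓ : ℕ) (hℓ : ℓ.Prime) (hℓN : ¬ ℓ ∣ N) (γ : Additive (Gamma0 N))
    (lam : Lam N) :
    trFun ℓ hℓ hℓN (evHom N γ) lam = (cohT N ℓ hℓ hℓN ℤ lam) γ := rfl

/-- The sum of the rewritten elements. -/
theorem sum_evR_kap {ℓ : ℕ} [Fact ℓ.Prime] (hℓ : ℓ.Prime) (hℓN : ¬ ℓ ∣ N) (γ : Gamma0 N)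
    (lam : Lam N) :
    (cohT N ℓ hℓ hℓN ℤ lam) (Additive.ofMul γ)
      = ∑ x, evHom N (Additive.ofMul ((rewritingT N ℓ hℓN).kap γ x)) lam := rfl

theorem trFun_evHom {ℓ : ℕ} [Fact ℓ.Prime] (hℓ : ℓ.Prime) (hℓN : ¬ ℓ ∣ N) (γ : Gamma0 N) :
    trFun ℓ hℓ hℓN (evHom N (Additive.ofMul γ))
      = ∑ x, evHom N (Additive.ofMul ((rewritingT N ℓ hℓN).kap γ x)) := by
  funext lam
  rw [Finset.sum_apply, trFun_evHom_apply, sum_evR_kap]

theorem trFun_mem_evRange (ℓ : ℕ) (hℓ : ℓ.Prime) (hℓN : ¬ ℓ ∣ N) (β : Lam N → ℤ)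
    (hβ : β ∈ evRange N) : trFun ℓ hℓ hℓN β ∈ evRange N := by
  have : Fact ℓ.Prime := ⟨hℓ⟩
  obtain ⟨γ', rfl⟩ := hβ
  obtain ⟨γ, rfl⟩ : ∃ γ : Gamma0 N, Additive.ofMul γ = γ' := ⟨Additive.toMul γ', rfl⟩
  rw [trFun_evHom hℓ hℓN γ]
  exact Submodule.sum_mem _ fun x _ => ⟨_, rfl⟩

/-- The Hecke operator `t_ℓ` on `B = range ev`. -/
def tB (ℓ : ℕ) (hℓ : ℓ.Prime) (hℓN : ¬ ℓ ∣ N) : ↥(evRange N) →+ ↥(evRange N) :=
  ((trFun ℓ hℓ hℓN).restrict (fun β hβ => trFun_mem_evRange ℓ hℓ hℓN β hβ)).toAddMonoidHom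

theorem coe_tB (ℓ : ℕ) (hℓ : ℓ.Prime) (hℓN : ¬ ℓ ∣ N) (β : ↥(evRange N)) :
    ((tB ℓ hℓ hℓN β : evRange N) : Lam N → ℤ) = trFun ℓ hℓ hℓN (β : Lam N → ℤ) := rfl

theorem tB_evR {ℓ : ℕ} [Fact ℓ.Prime] (hℓ : ℓ.Prime) (hℓN : ¬ ℓ ∣ N) (γ : Gamma0 N) :
    tB ℓ hℓ hℓN (evR N (Additive.ofMul γ))
      = ∑ x, evR N (Additive.ofMul ((rewritingT N ℓ hℓN).kap γ x)) := by
  apply Subtype.ext
  rw [coe_tB, coe_evR, trFun_evHom hℓ hℓN γ, AddSubmonoidClass.coe_finsetSum]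
  rfl

set_option maxHeartbeats 2000000 in
/-- Composition of a homomorphism on `B` with `ev` intertwines `t_ℓ` and `cohT`. -/
theorem cohT_comp_evR {A : Type*} [AddCommGroup A] (ℓ : ℕ) (hℓ : ℓ.Prime) (hℓN : ¬ ℓ ∣ N)
    (w : ↥(evRange N) →+ A) :
    cohT N ℓ hℓ hℓN A (w.comp (evR N)) = (w.comp (tB ℓ hℓ hℓN)).comp (evR N) := by
  have : Fact ℓ.Prime := ⟨hℓ⟩
  refine AddMonoidHom.ext fun γ' => ?_
  obtain ⟨γ, rfl⟩ : ∃ γ : Gamma0 N, Additive.ofMul γ = γ' := ⟨Additive.toMul γ', rfl⟩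
  have h1 : cohT N ℓ hℓ hℓN A (w.comp (evR N)) (Additive.ofMul γ)
      = ∑ x, w (evR N (Additive.ofMul ((rewritingT N ℓ hℓN).kap γ x))) := rfl
  have h2 : ((w.comp (tB ℓ hℓ hℓN)).comp (evR N)) (Additive.ofMul γ)
      = w (tB ℓ hℓ hℓN (evR N (Additive.ofMul γ))) := rfl
  rw [h1, h2, tB_evR hℓ hℓN γ, map_sum]

theorem tB_comm [NeZero N] (ℓ ℓ' : ℕ) (hℓ : ℓ.Prime) (hℓN : ¬ ℓ ∣ N) (hℓ' : ℓ'.Prime)
    (hℓ'N : ¬ ℓ' ∣ N) :
    (tB ℓ hℓ hℓN).comp (tB ℓ' hℓ' hℓ'N) = (tB ℓ' hℓ' hℓ'N).comp (tB (N := N) ℓ hℓ hℓN) := by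
  refine AddMonoidHom.ext fun β => ?_
  apply Subtype.ext
  funext lam
  show (β : Lam N → ℤ) (cohTLam ℓ' hℓ' hℓ'N (cohTLam ℓ hℓ hℓN lam))
    = (β : Lam N → ℤ) (cohTLam ℓ hℓ hℓN (cohTLam ℓ' hℓ' hℓ'N lam))
  exact congrArg (β : Lam N → ℤ) (Subtype.ext (cohComm N ℓ' ℓ hℓ' hℓ'N hℓ hℓN lam lam.2))

/-- A section of the evaluation map. -/
def preB (β : ↥(evRange N)) : Additive (Gamma0 N) := Classical.choose β.2

theorem evHom_preB (β : ↥(evRange N)) : evHom N (preB β) = (β : Lam N → ℤ) :=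
  Classical.choose_spec β.2

/-- Descent of a homomorphism on `Γ₀(N)` that is detected by integral parabolic classes. -/
def descend {A : Type*} [AddCommGroup A] (v : Additive (Gamma0 N) →+ A)
    (hv : ∀ γ, evHom N γ = 0 → v γ = 0) : ↥(evRange N) →+ A where
  toFun β := v (preB β)
  map_zero' := hv _ (by rw [evHom_preB]; rfl)
  map_add' β β' := by
    rw [← map_add]
    have h : evHom N (preB (β + β') - (preB β + preB β')) = 0 := by
      rw [map_sub, map_add, evHom_preB, evHom_preB, evHom_preB]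
      simp
    have := hv _ h
    rw [map_sub, sub_eq_zero] at this
    exact this

theorem descend_evR {A : Type*} [AddCommGroup A] (v : Additive (Gamma0 N) →+ A)
    (hv : ∀ γ, evHom N γ = 0 → v γ = 0) (γ : Additive (Gamma0 N)) :
    descend v hv (evR N γ) = v γ := by
  show v (preB (evR N γ)) = v γ
  have h : evHom N (preB (evR N γ) - γ) = 0 := by
    rw [map_sub, evHom_preB]
    simp
  have := hv _ h
  rw [map_sub, sub_eq_zero] at this
  exact this

end construction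

set_option maxHeartbeats 4000000 in
/-- **ES-C3-ASM.** -/
theorem cohEigenvector_of_parts (hEIG : EigenformHeckeStatement)
    (hRAT : RationalStructureStatement) (hALG : ReductionEigenStatement) :
    CohEigenvectorStatement := by
  intro N _ g hg p hp k _ _ φ
  -- the complex eigenvector
  set v₀ : Additive (Gamma0 N) →+ ℂ := periodHomPair N (g, 0) with hv₀
  have hv₀par : IsParabolicHom (Gamma0 N) v₀ := by
    have : v₀ ∈ LinearMap.range (periodHomPair N) := ⟨(g, 0), rfl⟩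
    rw [(eichlerShimura N).2] at this
    exact this
  have hg0 : g ≠ 0 := by
    intro h
    have h1 := hg.qCoeff_one
    rw [h] at h1
    have h2 : ModularFormClass.qCoeff (⇑(0 : CuspForm (Gamma0 N) 2)) 1 = 0 := by
      show (qExpansion 1 (⇑(0 : CuspForm (Gamma0 N) 2))).coeff 1 = 0
      have : (⇑(0 : CuspForm (Gamma0 N) 2) : ℍ → ℂ) = 0 := rfl
      rw [this, qExpansion_zero]
      simp
    rw [h2] at h1
    exact zero_ne_one h1
  have hv₀ne : v₀ ≠ 0 := by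
    intro h
    have h1 : periodHomPair N (g, 0) = periodHomPair N (0, 0) := by
      rw [← hv₀, h]
      exact (map_zero (periodHomPair N)).symm
    have h2 := (eichlerShimura N).1 h1
    exact hg0 (Prod.mk.inj h2).1
  have hv₀eig : ∀ (ℓ : ℕ) (hℓ : ℓ.Prime) (hℓN : ¬ ℓ ∣ N),
      cohT N ℓ hℓ hℓN ℂ v₀ = ModularFormClass.qCoeff g ℓ • v₀ := by
    intro ℓ hℓ hℓN
    rw [hv₀, ← periodHomPair_cohT, (hEIG N g hg ℓ hℓ hℓN).1, map_zero, ← map_smul]
    congr 1
    simp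
  -- descent to `B`
  have hdet : ∀ γ, evHom N γ = 0 → v₀ γ = 0 := by
    intro γ' hγ'
    obtain ⟨γ, rfl⟩ : ∃ γ : Gamma0 N, Additive.ofMul γ = γ' := ⟨Additive.toMul γ', rfl⟩
    refine hRAT N γ (fun ψ hψ => ?_) v₀ hv₀par
    exact congrFun hγ' ⟨ψ, hψ⟩
  set v : ↥(evRange N) →+ ℂ := descend v₀ hdet with hv
  have hvne : v ≠ 0 := by
    intro h
    apply hv₀ne
    refine AddMonoidHom.ext fun γ => ?_
    rw [← descend_evR v₀ hdet γ, ← hv, h]
    rfl
  let ι : Type := {ℓ : ℕ // ℓ.Prime ∧ ¬ ℓ ∣ N}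
  let t : ι → (↥(evRange N) →+ ↥(evRange N)) := fun i => tB i.1 i.2.1 i.2.2
  let a : ι → ℂ := fun i => ModularFormClass.qCoeff g i.1
  have hcomm : ∀ i j, (t i).comp (t j) = (t j).comp (t i) :=
    fun i j => tB_comm i.1 j.1 i.2.1 i.2.2 j.2.1 j.2.2
  have heig : ∀ i, v.comp (t i) = a i • v := by
    intro i
    refine AddMonoidHom.ext fun β => ?_
    obtain ⟨γ, rfl⟩ := evR_surjective N β
    have h1 := cohT_comp_evR i.1 i.2.1 i.2.2 v
    have h2 : v.comp (evR N) = v₀ := AddMonoidHom.ext fun γ => descend_evR v₀ hdet γ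
    rw [h2, hv₀eig i.1 i.2.1 i.2.2] at h1
    have h3 := DFunLike.congr_fun h1 γ
    simp only [AddMonoidHom.comp_apply, AddMonoidHom.smul_apply] at h3 ⊢
    rw [← h3, ← h2]
    rfl
  obtain ⟨-, hred⟩ := hALG ↥(evRange N) ι t hcomm v a hvne heig
  obtain ⟨w, hwne, hw⟩ := hred p hp k φ
  refine ⟨w.comp (evR N), ?_, ?_, ?_, ?_⟩
  · intro h
    apply hwne
    refine AddMonoidHom.ext fun β => ?_
    obtain ⟨γ, rfl⟩ := evR_surjective N β
    exact DFunLike.congr_fun h γ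
  · intro γ hγ
    show w (evR N (Additive.ofMul γ)) = 0
    rw [evR_eq_zero_of_parabolic N γ hγ, map_zero]
  · intro γ hγ
    show w (evR N (Additive.ofMul γ)) = 0
    rw [evR_eq_zero_of_isOfFinOrder N γ hγ, map_zero]
  · intro ℓ hℓ hℓN
    obtain ⟨b, hb, hwb⟩ := hw ⟨ℓ, hℓ, hℓN⟩
    refine ⟨b, hb, ?_⟩
    rw [cohT_comp_evR ℓ hℓ hℓN w]
    have : w.comp (tB ℓ hℓ hℓN) = φ b • w := hwb
    rw [this]
    rfl

end Fermat.Agent.H21.EsC

end
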