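import Fermat.Agent.H21.EsC.Eigen
import Fermat.Agent.H50.EsC.Eigen
import Fermat.Agent.H70.EsC.RationalStructure
import Fermat.Agent.H79.ReductionEigen

/-!
# ES-C3: the cohomological eigenvector (unconditional)

`Fermat.Agent.H21.EsC.cohEigenvector : CohEigenvectorStatement`: for every normalised weight-2
eigenform `f` of level `N`, every prime `p`, every field `k` of characteristic `p` and every
ring homomorphism `φ : ℤ̄ → k` there is a nonzero `ψ : Γ₀(N) → k`, killed by parabolic and by
finite-order elements, with `cohT ℓ ψ = φ(a_ℓ) ψ` for all primes `ℓ ∤ N`.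
-/

namespace Fermat.Agent.H21.EsC

/-- ES-C3, unconditional. -/
theorem cohEigenvector : CohEigenvectorStatement :=
  cohEigenvector_of_parts Fermat.Agent.H50.eigenformHecke
    Fermat.Agent.H70.rationalStructureStatement Fermat.Agent.H79.reductionEigen

end Fermat.Agent.H21.EsC
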