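import Fermat.Agent.H21.EsC.Interfaces

/-!
# ES-C1-ASM: the Hecke inputs from the parts

`heckeInputs_of_parts : RelFundamentalIdentityStatement → RelNormFormulaStatement →
  DegeneracyFiniteStatement L → IsFunctionFieldStatement L → PrincipalDivisorsStatement L →
  HeckeInputsStatement L` for an algebraically closed field `L` of characteristic zero.
-/

set_option autoImplicit false

noncomputable section

open AlgebraicCurve IntermediateField ModularCurve

namespace Fermat.Agent.H21.EsC

/-- Finiteness along a homomorphism implies integrality. -/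
theorem isIntegral_of_finiteAlong {K F F' : Type*} [Field K] [Field F] [Field F'] [Algebra K F]
    [Algebra K F'] (φ : F →ₐ[K] F') (h : FiniteAlong K φ) : φ.toRingHom.IsIntegral := by
  let _ := algebraAlong φ
  have : Module.Finite F F' := h
  intro x
  exact Algebra.IsIntegral.isIntegral (R := F) x

/-- **ES-C1-ASM.** -/
theorem heckeInputs_of_parts (L : Type) [Field L] [Algebra ℚ L] [IsAlgClosed L] [CharZero L]
    (hFI : RelFundamentalIdentityStatement) (hNF : RelNormFormulaStatement)
    (hFin : DegeneracyFiniteStatement L) (hFF : IsFunctionFieldStatement L)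
    (hPD : PrincipalDivisorsStatement L) : HeckeInputsStatement L := by
  intro N ℓ _ _ hℓ
  obtain ⟨hfinα, hfinβ⟩ := hFin N ℓ hℓ
  have hα : HeckeAlphaBarIntegral L N ℓ := isIntegral_of_finiteAlong _ hfinα
  have hβ : HeckeBetaBarIntegral L N ℓ := isIntegral_of_finiteAlong _ hfinβ
  haveI hP : HasPrincipalDivisors L
      ↥(laurentBaseChange L (modularFunctionFieldFull (N * ℓ))) := hPD (N * ℓ)
  refine ⟨hα, hβ, hP, hfinα, ?_, ?_⟩
  · letI := algebraAlong (heckeBetaBar L N ℓ)
    haveI := isScalarTower_along (heckeBetaBar L N ℓ)
    haveI : Module.Finite ↥(laurentBaseChange L (modularFunctionFieldFull N))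
        ↥(laurentBaseChange L (modularFunctionFieldFull (N * ℓ))) := hfinβ
    exact hFI L ↥(laurentBaseChange L (modularFunctionFieldFull N))
      ↥(laurentBaseChange L (modularFunctionFieldFull (N * ℓ))) (hFF N)
  · letI := algebraAlong (heckeAlphaBar L N ℓ)
    haveI := isScalarTower_along (heckeAlphaBar L N ℓ)
    haveI : Module.Finite ↥(laurentBaseChange L (modularFunctionFieldFull N))
        ↥(laurentBaseChange L (modularFunctionFieldFull (N * ℓ))) := hfinα
    exact hNF L ↥(laurentBaseChange L (modularFunctionFieldFull N))
      ↥(laurentBaseChange L (modularFunctionFieldFull (N * ℓ))) (hFF N)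

end Fermat.Agent.H21.EsC

end
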