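import Mathlib

/-!
# Extension of scalars for homomorphisms of a finitely generated group (Mathlib only)

For a field `k` which is a free algebra over a commutative ring `F`, a group `G` and an
`F`-module `V` with an injective linear map `ι : V → Hom(G, F)` the natural map
`tensorEval k ι : k ⊗[F] V → Hom(G, k)`, `c ⊗ χ ↦ c • ι χ`, is injective
(`tensorEval_injective`).  If `G` is finitely generated and the image of `ι` contains the
homomorphisms vanishing on a set `S ⊆ G`, then every `ψ ∈ Hom(G, k)` vanishing on `S` is in the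
image (`exists_tensorEval_eq`).
-/

set_option autoImplicit false

noncomputable section

open TensorProduct

namespace Fermat.Agent.H21.EsC

section tensor

variable {F : Type*} [CommRing F] {k : Type*} [Field k] [Algebra F k] {G : Type*} [Group G]

/-- Extension of the coefficients of a homomorphism along `F → k`. -/
def extHom (k : Type*) [Field k] [Algebra F k] (χ : Additive G →+ F) : Additive G →+ k :=
  (algebraMap F k).toAddMonoidHom.comp χ

@[simp] theorem extHom_apply (χ : Additive G →+ F) (γ : Additive G) :
    extHom k χ γ = algebraMap F k (χ γ) := rfl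

theorem extHom_add (χ χ' : Additive G →+ F) : extHom k (χ + χ') = extHom k χ + extHom k χ' := by
  refine AddMonoidHom.ext fun γ => ?_
  simp

theorem extHom_smul (a : F) (χ : Additive G →+ F) : extHom k (a • χ) = a • extHom k χ := by
  refine AddMonoidHom.ext fun γ => ?_
  simp [Algebra.smul_def]

variable {V : Type*} [AddCommGroup V] [Module F V] (ι : V →ₗ[F] (Additive G →+ F))

/-- The natural map `k ⊗[F] V → Hom(G, k)` for a space `V` of homomorphisms `G → F`. -/
def tensorEval (k : Type*) [Field k] [Algebra F k] (ι : V →ₗ[F] (Additive G →+ F)) :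
    k ⊗[F] V →ₗ[F] (Additive G →+ k) :=
  TensorProduct.lift
    (LinearMap.mk₂ F (fun (c : k) (χ : V) => c • extHom k (ι χ))
      (fun c c' χ => add_smul c c' _)
      (fun a c χ => smul_assoc a c _)
      (fun c χ χ' => by
        rw [map_add, extHom_add, smul_add])
      (fun a c χ => by
        rw [map_smul, extHom_smul, smul_comm]))

@[simp] theorem tensorEval_tmul (c : k) (χ : V) :
    tensorEval k ι (c ⊗ₜ[F] χ) = c • extHom k (ι χ) := by
  simp [tensorEval]

theorem tensorEval_smul (c : k) (ξ : k ⊗[F] V) :
    tensorEval k ι (c • ξ) = c • tensorEval k ι ξ := by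
  induction ξ using TensorProduct.induction_on with
  | zero => simp
  | tmul x y => simp [TensorProduct.smul_tmul', smul_smul]
  | add x y hx hy => rw [smul_add, map_add, hx, hy, map_add, smul_add]

theorem tensorEval_injective [Module.Free F k] (hι : Function.Injective ι) :
    Function.Injective (tensorEval k ι) := by
  classical
  rw [injective_iff_map_eq_zero]
  intro ξ hξ
  set b := Module.Free.chooseBasis F k with hb
  set e := TensorProduct.equivFinsuppOfBasisLeft (N := V) b with he
  obtain ⟨f, rfl⟩ : ∃ f, e.symm f = ξ := ⟨e ξ, e.symm_apply_apply ξ⟩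
  suffices h : f = 0 by rw [h, map_zero]
  rw [he, TensorProduct.equivFinsuppOfBasisLeft_symm_apply] at hξ
  refine Finsupp.ext fun i => hι ?_
  rw [Finsupp.zero_apply, map_zero]
  refine AddMonoidHom.ext fun γ => ?_
  have h1 := DFunLike.congr_fun hξ γ
  rw [Finsupp.sum, map_sum, AddMonoidHom.finsetSum_apply] at h1
  have h2 : ∑ j ∈ f.support, ((ι (f j) : Additive G →+ F) γ) • b j = 0 := by
    rw [← AddMonoidHom.zero_apply (M := Additive G) (N := k) γ, ← h1]
    refine Finset.sum_congr rfl fun j _ => ?_
    rw [tensorEval_tmul]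
    show _ = b j * algebraMap F k ((ι (f j) : Additive G →+ F) γ)
    rw [Algebra.smul_def, mul_comm]
  have h3 := b.linearIndependent
  rw [linearIndependent_iff'] at h3
  by_cases hi : i ∈ f.support
  · exact h3 f.support (fun j => (ι (f j) : Additive G →+ F) γ) h2 i hi
  · rw [Finsupp.notMem_support_iff] at hi
    rw [hi, map_zero]

theorem exists_tensorEval_eq [Module.Free F k] [Group.FG G] (S : Set G)
    (hS : ∀ χ : Additive G →+ F, (∀ γ ∈ S, χ (Additive.ofMul γ) = 0) → ∃ v : V, ι v = χ)
    (ψ : Additive G →+ k) (hψ : ∀ γ ∈ S, ψ (Additive.ofMul γ) = 0) :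
    ∃ ξ : k ⊗[F] V, tensorEval k ι ξ = ψ := by
  classical
  set b := Module.Free.chooseBasis F k with hb
  obtain ⟨t, ht⟩ := Group.FG.out (G := G)
  -- the coordinate homomorphisms
  let ψc : Module.Free.ChooseBasisIndex F k → (Additive G →+ F) := fun i =>
    ((b.coord i : k →ₗ[F] F) : k →+ F).comp ψ
  have hψc : ∀ i, ∀ γ ∈ S, ψc i (Additive.ofMul γ) = 0 := by
    intro i γ hγ
    show b.coord i (ψ (Additive.ofMul γ)) = 0
    rw [hψ γ hγ, map_zero]
  choose w hw using fun i => hS (ψc i) (hψc i)
  let I : Finset (Module.Free.ChooseBasisIndex F k) :=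
    t.biUnion fun g => (b.repr (ψ (Additive.ofMul g))).support
  have hI : ∀ i, i ∉ I → ψc i = 0 := by
    intro i hi
    let m : G →* Multiplicative F :=
      (MonoidHom.toAdditive (α := G) (β := Multiplicative F)).symm (ψc i)
    have h0 : ∀ g ∈ (t : Set G), m g = (1 : G →* Multiplicative F) g := by
      intro g hg
      have : b.repr (ψ (Additive.ofMul g)) i = 0 := by
        by_contra h
        exact hi (Finset.mem_biUnion.mpr ⟨g, hg, Finsupp.mem_support_iff.mpr h⟩)
      show Multiplicative.ofAdd (b.repr (ψ (Additive.ofMul g)) i) = 1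
      rw [this]; rfl
    have h1 : m = 1 := MonoidHom.eq_of_eqOn_dense ht h0
    refine AddMonoidHom.ext fun γ => ?_
    have := DFunLike.congr_fun h1 (Additive.toMul γ)
    exact congrArg Multiplicative.toAdd this
  refine ⟨∑ i ∈ I, b i ⊗ₜ[F] w i, ?_⟩
  refine AddMonoidHom.ext fun γ => ?_
  rw [map_sum, AddMonoidHom.finsetSum_apply]
  have h2 : ∀ i ∈ I, (tensorEval k ι (b i ⊗ₜ[F] w i)) γ = (b.repr (ψ γ) i) • b i := by
    intro i _
    rw [tensorEval_tmul, hw]
    show b i * algebraMap F k (b.repr (ψ γ) i) = _
    rw [Algebra.smul_def, mul_comm]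
  rw [Finset.sum_congr rfl h2]
  have h3 : (b.repr (ψ γ)).support ⊆ I := by
    intro i hi
    by_contra hiI
    have := DFunLike.congr_fun (hI i hiI) γ
    exact (Finsupp.mem_support_iff.mp hi) this
  conv_rhs => rw [← b.linearCombination_repr (ψ γ)]
  rw [Finsupp.linearCombination_apply, Finsupp.sum]
  refine (Finset.sum_subset h3 ?_).symm
  intro i _ hi
  rw [Finsupp.notMem_support_iff.mp hi, zero_smul]

end tensor

end Fermat.Agent.H21.EsC

end
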