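import Fermat.Agent.H21.EsC.EigenFinal
import Fermat.Agent.H21.EsC.Tensor
import Fermat.Agent.H22.ES.Interfaces
import Fermat.Prelude.Def_ModularCurve_HeckeModule

/-!
# P-ES / Q-EIG: the eigenvector in `k ⊗ J₀(N)[p]`

* `parEllHoms N p` : the group `V_p` of homomorphisms `Γ₀(N) → ℤ/p` vanishing on parabolic
  elements and on elements of finite order; `cohTPar` : the operator `cohT` on it.
* `exists_tensor_eigenvector` : the eigenvector `ψ : Γ₀(N) → k` of `cohEigenvector` gives a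
  nonzero `ξ ∈ k ⊗ V_p` which is an eigenvector of all `1 ⊗ cohT ℓ` with the same eigenvalues.
* `KummerBridgeStatement N` : an injective additive map `E : V_p → J₀(N)(ℚ̄)[p]` intertwining
  `cohT ℓ` with the prelude Hecke operator `heckeOperatorBar N ℓ` (`ℓ ∤ N` prime).
* `occursVec_of_bridge` : `KummerBridgeStatement N` implies `D.OccursVec g` for every torsion
  Hecke datum `D` whose operators are the restrictions of the prelude Hecke operators.
-/

set_option autoImplicit false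

noncomputable section

open ModularCurve ModularCurve.Period AlgebraicCurve CongruenceSubgroup TensorProduct
open scoped MatrixGroups

namespace Fermat.Agent.H21.EsC

/-- The parabolic elements and the elements of finite order of `Γ₀(N)`. -/
def parEllSet (N : ℕ) : Set ↥(Gamma0 N) :=
  {γ | ((γ : SL(2, ℤ)) : Matrix (Fin 2) (Fin 2) ℤ).trace ^ 2 = 4 ∨ IsOfFinOrder γ}

/-- The group `V_p` of homomorphisms `Γ₀(N) → ℤ/p` vanishing on parabolic elements and on
elements of finite order. -/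
def parEllHoms (N p : ℕ) : AddSubgroup (Additive ↥(Gamma0 N) →+ ZMod p) where
  carrier := {χ | ∀ γ ∈ parEllSet N, χ (Additive.ofMul γ) = 0}
  zero_mem' := fun _ _ => rfl
  add_mem' := by
    intro φ ψ hφ hψ γ hγ
    show φ (Additive.ofMul γ) + ψ (Additive.ofMul γ) = 0
    rw [hφ γ hγ, hψ γ hγ, add_zero]
  neg_mem' := by
    intro φ hφ γ hγ
    show - φ (Additive.ofMul γ) = 0
    rw [hφ γ hγ, neg_zero]

theorem mem_parEllHoms_iff {N p : ℕ} {χ : Additive ↥(Gamma0 N) →+ ZMod p} :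
    χ ∈ parEllHoms N p ↔ ∀ γ ∈ parEllSet N, χ (Additive.ofMul γ) = 0 := Iff.rfl

theorem mem_parEllHoms {N p : ℕ} {χ : Additive ↥(Gamma0 N) →+ ZMod p} :
    χ ∈ parEllHoms N p ↔ IsParabolicHom (Gamma0 N) χ ∧
      ∀ γ : ↥(Gamma0 N), IsOfFinOrder γ → χ (Additive.ofMul γ) = 0 := by
  constructor
  · intro h
    exact ⟨fun γ hγ => h γ (Or.inl hγ), fun γ hγ => h γ (Or.inr hγ)⟩
  · rintro ⟨h1, h2⟩ γ (hγ | hγ)
    · exact h1 γ hγ
    · exact h2 γ hγ

/-- The inclusion of `V_p`, as a `ZMod p`-linear map. -/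
def parEllIncl (N p : ℕ) : parEllHoms N p →ₗ[ZMod p] (Additive ↥(Gamma0 N) →+ ZMod p) :=
  (parEllHoms N p).subtype.toZModLinearMap p

@[simp] theorem parEllIncl_apply (N p : ℕ) (χ : parEllHoms N p) :
    parEllIncl N p χ = (χ : Additive ↥(Gamma0 N) →+ ZMod p) := rfl

theorem parEllIncl_injective (N p : ℕ) : Function.Injective (parEllIncl N p) :=
  fun _ _ h => Subtype.ext h

/-- The operator `cohT ℓ` on `V_p`, as an additive map. -/
def cohTParAdd (N p ℓ : ℕ) (hℓ : ℓ.Prime) (hℓN : ¬ ℓ ∣ N) : parEllHoms N p →+ parEllHoms N p :=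
  ((cohT N ℓ hℓ hℓN (ZMod p)).comp (parEllHoms N p).subtype).codRestrict (parEllHoms N p)
    (fun χ => by
      have hχ := mem_parEllHoms.mp χ.2
      exact mem_parEllHoms.mpr
        ⟨cohT_isParabolicHom hℓ hℓN _ hχ.1, cohT_kills_finOrder hℓ hℓN _ hχ.2⟩)

/-- The operator `cohT ℓ` on `V_p`. -/
def cohTPar (N p ℓ : ℕ) (hℓ : ℓ.Prime) (hℓN : ¬ ℓ ∣ N) : Module.End (ZMod p) (parEllHoms N p) :=
  (cohTParAdd N p ℓ hℓ hℓN).toZModLinearMap p

@[simp] theorem coe_cohTPar (N p ℓ : ℕ) (hℓ : ℓ.Prime) (hℓN : ¬ ℓ ∣ N) (χ : parEllHoms N p) :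
    ((cohTPar N p ℓ hℓ hℓN χ : parEllHoms N p) : Additive ↥(Gamma0 N) →+ ZMod p)
      = cohT N ℓ hℓ hℓN (ZMod p) (χ : Additive ↥(Gamma0 N) →+ ZMod p) := rfl

section

variable (N : ℕ) (p : ℕ) (k : Type*) [Field k] [Algebra (ZMod p) k]

theorem tensorEval_baseChange_cohTPar (ℓ : ℕ) (hℓ : ℓ.Prime) (hℓN : ¬ ℓ ∣ N)
    (ξ : k ⊗[ZMod p] parEllHoms N p) :
    tensorEval k (parEllIncl N p) ((cohTPar N p ℓ hℓ hℓN).baseChange k ξ)
      = cohT N ℓ hℓ hℓN k (tensorEval k (parEllIncl N p) ξ) := by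
  induction ξ using TensorProduct.induction_on with
  | zero => simp
  | tmul c χ =>
    rw [LinearMap.baseChange_tmul, tensorEval_tmul, tensorEval_tmul, parEllIncl_apply,
      parEllIncl_apply, coe_cohTPar, cohT_smul]
    congr 1
    exact (cohT_comp hℓ hℓN (algebraMap (ZMod p) k).toAddMonoidHom
      (χ : Additive ↥(Gamma0 N) →+ ZMod p)).symm
  | add x y hx hy => rw [map_add, map_add, hx, hy, map_add, map_add]

/-- **Q-EIG, tensor step.**  A nonzero parabolic class with values in `k` vanishing on elements of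
finite order gives a nonzero vector of `k ⊗ V_p` with the same `cohT`-eigenvalues. -/
theorem exists_tensor_eigenvector [NeZero N] [Module.Free (ZMod p) k]
    (ψ : Additive ↥(Gamma0 N) →+ k) (hψ0 : ψ ≠ 0) (hpar : IsParabolicHom (Gamma0 N) ψ)
    (hfin : ∀ γ : ↥(Gamma0 N), IsOfFinOrder γ → ψ (Additive.ofMul γ) = 0) :
    ∃ ξ : k ⊗[ZMod p] parEllHoms N p, ξ ≠ 0 ∧
      ∀ (ℓ : ℕ) (hℓ : ℓ.Prime) (hℓN : ¬ ℓ ∣ N) (c : k),
        cohT N ℓ hℓ hℓN k ψ = c • ψ → (cohTPar N p ℓ hℓ hℓN).baseChange k ξ = c • ξ := by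
  haveI : Group.FG ↥(Gamma0 N) := by
    haveI : Group.FG SL(2, ℤ) := Fermat.Agent.H6.sl2Z_group_fg
    exact Subgroup.fg_of_index_ne_zero (Gamma0 N)
  obtain ⟨ξ, hξ⟩ := exists_tensorEval_eq (k := k) (parEllIncl N p) (parEllSet N)
    (fun χ hχ => ⟨⟨χ, hχ⟩, rfl⟩) ψ (by
      rintro γ (hγ | hγ)
      · exact hpar γ hγ
      · exact hfin γ hγ)
  refine ⟨ξ, ?_, ?_⟩
  · rintro rfl
    exact hψ0 (by rw [← hξ, map_zero])
  · intro ℓ hℓ hℓN c hc
    apply tensorEval_injective (k := k) (parEllIncl N p) (parEllIncl_injective N p)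
    rw [tensorEval_baseChange_cohTPar, tensorEval_smul, hξ, hc]

end

/-- **Q-EIG, bridge.**  An injective additive map from `V_p` to the `p`-torsion of `J₀(N)(ℚ̄)`
which intertwines `cohT ℓ` with the prelude Hecke operator, for every prime `ℓ ∤ N`. -/
def KummerBridgeStatement (N : ℕ) [NeZero N] : Prop :=
  ∀ (p : ℕ), p.Prime →
    ∃ E : parEllHoms N p →+ JZero N, Function.Injective E ∧ (∀ χ, p • E χ = 0) ∧
      ∀ (ℓ : ℕ) (hℓ : ℓ.Prime) (hℓN : ¬ ℓ ∣ N) (χ : parEllHoms N p),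
        E (cohTPar N p ℓ hℓ hℓN χ) = heckeOperatorBar N ⟨ℓ, hℓ⟩ (E χ)

/-- **Q-EIG, assembly.**  From the bridge: the eigen-system of every normalised eigenform occurs
in `k ⊗ J₀(N)[p]`, for every torsion Hecke datum whose operators restrict the prelude Hecke
operators. -/
theorem occursVec_of_bridge (N : ℕ) [NeZero N] (p : ℕ) (hp : p.Prime)
    (hB : KummerBridgeStatement N) (D : Fermat.Agent.H22.ES.TorsionHeckeDatum N p)
    (hD : ∀ (ℓ : ℕ) (hℓ : ℓ.Prime), ¬ ℓ ∣ N → ∀ x : Fermat.Agent.H22.ES.JTors N p,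
      ((D.T ℓ x : Fermat.Agent.H22.ES.JTors N p) : JZero N)
        = heckeOperatorBar N ⟨ℓ, hℓ⟩ (x : JZero N))
    (g : CuspForm (Gamma0 N) 2) (hg : g.IsNormalizedEigenform) : D.OccursVec g := by
  intro k _ _ φ
  haveI : Fact p.Prime := ⟨hp⟩
  haveI : CharP k p :=
    charP_of_injective_algebraMap (algebraMap (ZMod p) k).injective p
  obtain ⟨ψ, hψ0, hpar, hfin, hev⟩ := cohEigenvector N g hg p hp k φ
  obtain ⟨ξ, hξ0, hξ⟩ := exists_tensor_eigenvector N p k ψ hψ0 hpar hfin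
  obtain ⟨E, hEinj, hEtors, hEhecke⟩ := hB p hp
  -- the bridge as a linear map to the torsion
  let E₀ : parEllHoms N p →+ Fermat.Agent.H22.ES.JTors N p :=
    E.codRestrict (Pic0.torsion (AlgebraicClosure ℚ) (modularFunctionFieldBar N) p) (fun χ => by
      rw [Pic0.mem_torsion, natCast_zsmul]
      exact hEtors χ)
  let E' : parEllHoms N p →ₗ[ZMod p] Fermat.Agent.H22.ES.JTors N p := E₀.toZModLinearMap p
  have hE'inj : Function.Injective E' := by
    intro x y hxy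
    apply hEinj
    exact congrArg Subtype.val hxy
  have hcomm : ∀ (ℓ : ℕ) (hℓ : ℓ.Prime) (hℓN : ¬ ℓ ∣ N),
      (D.T ℓ).comp E' = E'.comp (cohTPar N p ℓ hℓ hℓN) := by
    intro ℓ hℓ hℓN
    refine LinearMap.ext fun χ => Subtype.ext ?_
    show ((D.T ℓ (E' χ) : Fermat.Agent.H22.ES.JTors N p) : JZero N)
      = E (cohTPar N p ℓ hℓ hℓN χ)
    rw [hD ℓ hℓ hℓN, hEhecke]
    rfl
  refine ⟨E'.baseChange k ξ, ?_, ?_⟩
  · intro h0
    apply hξ0
    have hinj : Function.Injective (E'.baseChange k) :=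
      Module.Flat.lTensor_preserves_injective_linearMap (M := k) E' hE'inj
    exact hinj (by rw [h0, map_zero])
  · intro ℓ hℓ hℓNp
    have hℓN : ¬ ℓ ∣ N := fun h => hℓNp (Dvd.dvd.mul_right h p)
    obtain ⟨a, ha, hcoh⟩ := hev ℓ hℓ hℓN
    refine ⟨a, ha, ?_⟩
    have h1 : (D.T ℓ).baseChange k (E'.baseChange k ξ)
        = E'.baseChange k ((cohTPar N p ℓ hℓ hℓN).baseChange k ξ) := by
      rw [← LinearMap.comp_apply, ← LinearMap.baseChange_comp, hcomm ℓ hℓ hℓN,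
        LinearMap.baseChange_comp, LinearMap.comp_apply]
    rw [h1, hξ ℓ hℓ hℓN (φ a) hcoh, map_smul]

end Fermat.Agent.H21.EsC

end
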