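import Fermat.Agent.H21.EsC.QEig

/-!
# P-ES / Q-EIG: the bridge `V_p → J₀(N)(ℚ̄)[p]` from its two halves

* `KummerBridgeCStatement N` (**QE-2**, complex side): an injective additive map
  `E₁ : V_p → Pic⁰(ℂ(X₀(N)))[p]` intertwining `cohT ℓ` with the prelude Hecke operator
  `heckeOperatorAlong ℂ N ℓ`.
* `DescentHeckeStatement N` (**QE-3**, descent): an injective additive map
  `φ : J₀(N)(ℚ̄) → Pic⁰(ℂ(X₀(N)))`, onto the torsion, intertwining the prelude Hecke operators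
  over `ℚ̄` and over `ℂ`.
* `kummerBridge_of_parts` : QE-2 + QE-3 ⟹ `KummerBridgeStatement N`.
-/

set_option autoImplicit false

noncomputable section

open ModularCurve ModularCurve.Period AlgebraicCurve CongruenceSubgroup TensorProduct
open scoped MatrixGroups

namespace Fermat.Agent.H21.EsC

/-- **QE-2.**  The complex Kummer bridge: an injective additive map from `V_p` to the
`p`-torsion of `Pic⁰` of the function field of `X₀(N)` over `ℂ`, intertwining `cohT ℓ` with the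
prelude Hecke operator over `ℂ`, for every prime `ℓ ∤ N`. -/
def KummerBridgeCStatement (N : ℕ) [NeZero N] : Prop :=
  ∀ (p : ℕ), p.Prime →
    ∃ E : parEllHoms N p →+ Pic0 ℂ ↥(laurentBaseChange ℂ (modularFunctionFieldFull N)),
      Function.Injective E ∧ (∀ χ, p • E χ = 0) ∧
      ∀ (ℓ : ℕ) [NeZero ℓ] (hℓ : ℓ.Prime) (hℓN : ¬ ℓ ∣ N) (χ : parEllHoms N p),
        E (cohTPar N p ℓ hℓ hℓN χ) = heckeOperatorAlong ℂ N ℓ (E χ)

/-- **QE-3.**  Hecke-equivariant descent: an injective additive map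
`J₀(N)(ℚ̄) → Pic⁰(ℂ(X₀(N)))` whose image contains all torsion classes and which intertwines the
prelude Hecke operators over `ℚ̄` and over `ℂ` on torsion classes, for every prime `ℓ ∤ N`. -/
def DescentHeckeStatement (N : ℕ) [NeZero N] : Prop :=
  ∃ φ : JZero N →+ Pic0 ℂ ↥(laurentBaseChange ℂ (modularFunctionFieldFull N)),
    Function.Injective φ ∧
    (∀ (m : ℕ), 0 < m → ∀ z : Pic0 ℂ ↥(laurentBaseChange ℂ (modularFunctionFieldFull N)),
      m • z = 0 → ∃ z₀ : JZero N, φ z₀ = z) ∧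
    ∀ (ℓ : ℕ) [NeZero ℓ] (hℓ : ℓ.Prime), ¬ ℓ ∣ N → ∀ (m : ℕ), 0 < m →
      ∀ x : JZero N, m • x = 0 →
        φ (heckeOperatorBar N ⟨ℓ, hℓ⟩ x) = heckeOperatorAlong ℂ N ℓ (φ x)

/-- **Q-EIG, bridge assembly.**  QE-2 + QE-3 ⟹ the bridge. -/
theorem kummerBridge_of_parts (N : ℕ) [NeZero N] (h2 : KummerBridgeCStatement N)
    (h3 : DescentHeckeStatement N) : KummerBridgeStatement N := by
  intro p hp
  obtain ⟨E₁, hE₁inj, hE₁tors, hE₁hecke⟩ := h2 p hp
  obtain ⟨φ, hφinj, hφsurj, hφhecke⟩ := h3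
  have hex : ∀ χ : parEllHoms N p, ∃ z₀ : JZero N, φ z₀ = E₁ χ :=
    fun χ => hφsurj p hp.pos (E₁ χ) (hE₁tors χ)
  choose e he using hex
  have hadd : ∀ χ χ', e (χ + χ') = e χ + e χ' := by
    intro χ χ'
    apply hφinj
    rw [map_add, he, he, he, map_add]
  have hzero : e 0 = 0 := by
    apply hφinj
    rw [he, map_zero, map_zero]
  have htors : ∀ χ, p • e χ = 0 := by
    intro χ
    apply hφinj
    rw [map_nsmul, he, hE₁tors, map_zero]
  refine ⟨⟨⟨e, hzero⟩, hadd⟩, ?_, htors, ?_⟩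
  · intro χ χ' h
    apply hE₁inj
    have h' : e χ = e χ' := h
    rw [← he χ, ← he χ', h']
  · intro ℓ hℓ hℓN χ
    haveI : NeZero ℓ := ⟨hℓ.ne_zero⟩
    apply hφinj
    show φ (e (cohTPar N p ℓ hℓ hℓN χ)) = φ (heckeOperatorBar N ⟨ℓ, hℓ⟩ (e χ))
    rw [he, hφhecke ℓ hℓ hℓN p hp.pos (e χ) (htors χ), he, hE₁hecke ℓ hℓ hℓN χ]

end Fermat.Agent.H21.EsC

end
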